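import Fermat.Agent.SiegelTrace.Auxiliary
import Mathlib.Analysis.Complex.Polynomial.Basic
import Mathlib.FieldTheory.Minpoly.IsIntegrallyClosed
import Mathlib.RingTheory.Polynomial.UniqueFactorization

/-!
# Siegel's trace theorem

The products of `x`, `x - 1` and `x ^ 2 - 3 x + 1` over the roots of a monic integer polynomial are
integers, so the auxiliary function has mean at most the mean of `x`.
-/

set_option autoImplicit false

noncomputable section

namespace FA.SiegelTrace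

open Polynomial Real

variable {f : ℤ[X]}

/-- The real parts of the complex roots. -/
def realRoots (f : ℤ[X]) : Multiset ℝ := (f.aroots ℂ).map Complex.re

theorem card_realRoots (f : ℤ[X]) : Multiset.card (realRoots f) = f.natDegree := by
  rw [realRoots, Multiset.card_map, aroots_def, IsAlgClosed.card_roots_eq_natDegree,
    natDegree_map_eq_of_injective (algebraMap ℤ ℂ).injective_int]

theorem ofReal_realRoots (him : ∀ z ∈ f.aroots ℂ, z.im = 0) :
    (realRoots f).map (fun x : ℝ => (x : ℂ)) = f.aroots ℂ := by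
  rw [realRoots, Multiset.map_map]
  refine (Multiset.map_congr rfl fun z hz => ?_).trans (Multiset.map_id _)
  exact Complex.ext rfl (by simp [him z hz])

theorem sum_realRoots (hf : f.Monic) : (realRoots f).sum = -(f.nextCoeff : ℝ) := by
  have h := Splits.nextCoeff_eq_neg_sum_roots_of_monic (IsAlgClosed.splits (f.map (algebraMap ℤ ℂ)))
    (hf.map _)
  rw [Polynomial.nextCoeff_map (algebraMap ℤ ℂ).injective_int, ← aroots_def] at h
  have h' : ∀ S : Multiset ℂ, (S.map Complex.re).sum = S.sum.re := fun S =>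
    (map_multiset_sum Complex.reAddGroupHom S).symm
  rw [realRoots, h', ← neg_neg (f.aroots ℂ).sum, ← h]
  simp

theorem prod_sub_realRoots (hf : f.Monic) (him : ∀ z ∈ f.aroots ℂ, z.im = 0) (r : ℝ) :
    ((realRoots f).map fun x => r - x).prod = aeval r f := by
  apply Complex.ofReal_injective
  have h := (IsAlgClosed.splits (f.map (algebraMap ℤ ℂ))).eval_eq_prod_roots_of_monic (hf.map _)
    (x := (r : ℂ))
  rw [← aroots_def, ← ofReal_realRoots him, Multiset.map_map, eval_map_algebraMap] at h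
  rw [← Complex.ofRealHom_eq_coe, map_multiset_prod, Multiset.map_map]
  refine Eq.trans ?_ (h.symm.trans (aeval_algebraMap_apply ℂ r f))
  simp

theorem one_le_abs_int {k : ℤ} (hk : k ≠ 0) : (1 : ℝ) ≤ |(k : ℝ)| := by
  exact_mod_cast Int.one_le_abs hk

theorem sum_log_nonneg {T : Multiset ℝ} (h0 : (0 : ℝ) ∉ T) {k : ℤ} (hk : |T.prod| = |(k : ℝ)|) :
    0 ≤ (T.map log).sum := by
  rw [← Real.log_multiset_prod fun x hx => fun e => h0 (e ▸ hx), ← Real.log_abs, hk]
  refine Real.log_nonneg (one_le_abs_int fun e => ?_)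
  rw [e, Int.cast_zero, abs_zero, abs_eq_zero, Multiset.prod_eq_zero_iff] at hk
  exact h0 hk

theorem prod_linear (hf : f.Monic) (him : ∀ z ∈ f.aroots ℂ, z.im = 0) (c : ℤ) :
    |((realRoots f).map fun x : ℝ => x - c).prod| = |((f.eval c : ℤ) : ℝ)| := by
  have h := prod_sub_realRoots hf him (c : ℝ)
  rw [show aeval (c : ℝ) f = ((f.eval c : ℤ) : ℝ) by
    rw [show (c : ℝ) = algebraMap ℤ ℝ c from rfl, aeval_algebraMap_apply]; simp] at h
  rw [← h]
  have habs : ∀ (S : Multiset ℝ), |S.prod| = (S.map fun x => |x|).prod := fun S =>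
    map_multiset_prod (absHom : ℝ →*₀ ℝ) S
  rw [habs, habs, Multiset.map_map, Multiset.map_map]
  exact congrArg Multiset.prod (Multiset.map_congr rfl fun x _ => abs_sub_comm _ _)

theorem prod_quadratic (hf : f.Monic) (him : ∀ z ∈ f.aroots ℂ, z.im = 0) (s p : ℤ) {r₁ r₂ : ℝ}
    (hs : r₁ + r₂ = s) (hp : r₁ * r₂ = p) :
    ∃ k : ℤ, ((realRoots f).map fun x : ℝ => x ^ 2 - s * x + p).prod = k := by
  have hfun : (fun x : ℝ => x ^ 2 - s * x + p) = fun x => (r₁ - x) * (r₂ - x) := by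
    funext x; rw [← hs, ← hp]; ring
  rw [hfun, Multiset.prod_map_mul, prod_sub_realRoots hf him, prod_sub_realRoots hf him]
  set q : ℤ[X] := X ^ 2 - C s * X + C p with hq
  have hqm : q.Monic := by rw [hq]; monicity!
  have hdeg : (f %ₘ q).degree ≤ 1 := by
    have h2 : q.degree = 2 := by rw [hq]; compute_degree!
    have := degree_modByMonic_lt f hqm
    rw [h2] at this
    exact Order.le_of_lt_succ this
  have heval : ∀ r : ℝ, r ^ 2 - s * r + p = 0 →
      aeval r f = ((f %ₘ q).coeff 1 : ℝ) * r + ((f %ₘ q).coeff 0 : ℝ) := fun r hr => by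
    conv_lhs => rw [← modByMonic_add_div f q, eq_X_add_C_of_degree_le_one hdeg]
    simp [hq, hr]
  rw [heval r₁ (by rw [← hs, ← hp]; ring), heval r₂ (by rw [← hs, ← hp]; ring)]
  refine ⟨(f %ₘ q).coeff 1 ^ 2 * p + (f %ₘ q).coeff 1 * (f %ₘ q).coeff 0 * s +
    (f %ₘ q).coeff 0 ^ 2, ?_⟩
  push_cast
  rw [← hs, ← hp]
  ring

/-- **The trace, away from the exceptional polynomials.** -/
theorem trace_ge (hf : f.Monic) (him : ∀ z ∈ f.aroots ℂ, z.im = 0)
    (hpos : ∀ z ∈ f.aroots ℂ, 0 < z.re)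
    (hexc : ∀ z ∈ f.aroots ℂ, z ≠ 1 ∧ z ^ 2 - 3 * z + 1 ≠ 0) :
    31 / 20 * (f.natDegree : ℝ) ≤ (realRoots f).sum := by
  have hmem : ∀ x ∈ realRoots f, (x : ℂ) ∈ f.aroots ℂ := fun x hx => by
    rw [← ofReal_realRoots him]
    exact Multiset.mem_map_of_mem _ hx
  have hS : ∀ x ∈ realRoots f, 0 < x ∧ x ≠ 1 ∧ x ^ 2 - 3 * x + 1 ≠ 0 := fun x hx =>
    ⟨by simpa using hpos _ (hmem x hx), fun e => (hexc _ (hmem x hx)).1 (by simp [e]),
      fun e => (hexc _ (hmem x hx)).2 (by exact_mod_cast e)⟩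
  rw [← card_realRoots]
  refine sum_ge _ hS ?_ ?_ ?_
  · refine sum_log_nonneg (fun h => (hS 0 h).1.ne rfl) (k := f.eval 0) ?_
    simpa using prod_linear hf him 0
  · rw [show (realRoots f).map (fun x => log (x - 1)) = ((realRoots f).map (· - 1)).map log by
      rw [Multiset.map_map]; rfl]
    refine sum_log_nonneg (fun h => ?_) (k := f.eval 1) (by simpa using prod_linear hf him 1)
    obtain ⟨x, hx, hx'⟩ := Multiset.mem_map.1 h
    exact (hS x hx).2.1 (sub_eq_zero.1 hx')
  · obtain ⟨k, hk⟩ := prod_quadratic hf him 3 1 (r₁ := smallRoot) (r₂ := largeRoot)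
      (by simpa using roots_spec.1) (by simpa using roots_spec.2.1)
    rw [show (realRoots f).map (fun x => log (x ^ 2 - 3 * x + 1)) =
      ((realRoots f).map fun x => x ^ 2 - 3 * x + 1).map log by rw [Multiset.map_map]; rfl]
    refine sum_log_nonneg (fun h => ?_) (k := k) (congrArg abs (by simpa using hk))
    obtain ⟨x, hx, hx'⟩ := Multiset.mem_map.1 h
    exact (hS x hx).2.2 hx'

/-- **The squares, away from the exceptional polynomials.** -/
theorem squares_ge (hf : f.Monic) (him : ∀ z ∈ f.aroots ℂ, z.im = 0)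
    (hexc : ∀ z ∈ f.aroots ℂ, z ≠ 0 ∧ z ≠ 1 ∧ z ≠ -1 ∧ z ^ 2 - z - 1 ≠ 0 ∧ z ^ 2 + z - 1 ≠ 0) :
    31 / 20 * (f.natDegree : ℝ) ≤ ((realRoots f).map (· ^ 2)).sum := by
  set T := realRoots f with hT
  have hne : ∀ x ∈ T, x ≠ 0 ∧ x ≠ 1 ∧ x ≠ -1 ∧ x ^ 2 - x - 1 ≠ 0 ∧ x ^ 2 + x - 1 ≠ 0 := by
    intro x hx
    obtain ⟨a, b, c, d, e⟩ := hexc (x : ℂ) (by
      rw [← ofReal_realRoots him]; exact Multiset.mem_map_of_mem _ hx)
    exact ⟨fun h => a (by simp [h]), fun h => b (by simp [h]), fun h => c (by simp [h]),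
      fun h => d (by exact_mod_cast h), fun h => e (by exact_mod_cast h)⟩
  rw [← card_realRoots, ← hT, show Multiset.card T = Multiset.card (T.map (· ^ 2)) from
    (Multiset.card_map _ _).symm]
  refine sum_ge _ ?_ ?_ ?_ ?_
  · intro y hy
    obtain ⟨x, hx, rfl⟩ := Multiset.mem_map.1 hy
    obtain ⟨a, b, c, d, e⟩ := hne x hx
    refine ⟨by positivity, fun h => ?_, fun h => ?_⟩
    · rcases sq_eq_one_iff.1 h with h' | h'
      exacts [b h', c h']
    · rcases mul_eq_zero.1 (show (x ^ 2 - x - 1) * (x ^ 2 + x - 1) = 0 by rw [← h]; ring) with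
        h' | h'
      exacts [d h', e h']
  · refine sum_log_nonneg (fun h => ?_) (k := f.eval 0 ^ 2) ?_
    · obtain ⟨x, hx, hx'⟩ := Multiset.mem_map.1 h
      exact (hne x hx).1 (eq_zero_of_pow_eq_zero hx')
    · rw [Multiset.prod_map_pow, Multiset.map_id', abs_pow, Int.cast_pow, abs_pow]
      congr 1
      simpa using prod_linear hf him 0
  · rw [Multiset.map_map, show T.map ((fun x => log (x - 1)) ∘ fun x : ℝ => x ^ 2) =
      (T.map fun x => (x - 1) * (x + 1)).map log by
        rw [Multiset.map_map]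
        exact Multiset.map_congr rfl fun x _ => by
          show log (x ^ 2 - 1) = log ((x - 1) * (x + 1))
          ring_nf]
    refine sum_log_nonneg (fun h => ?_) (k := f.eval 1 * f.eval (-1)) ?_
    · obtain ⟨x, hx, hx'⟩ := Multiset.mem_map.1 h
      rcases mul_eq_zero.1 hx' with h' | h'
      exacts [(hne x hx).2.1 (sub_eq_zero.1 h'), (hne x hx).2.2.1 (eq_neg_of_add_eq_zero_left h')]
    · rw [Multiset.prod_map_mul, abs_mul, Int.cast_mul, abs_mul]
      congr 1
      · simpa using prod_linear hf him 1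
      · simpa using prod_linear hf him (-1)
  · have h5 : √5 ^ 2 = 5 := Real.sq_sqrt (by norm_num)
    obtain ⟨k₁, hk₁⟩ := prod_quadratic hf him 1 (-1) (r₁ := (1 + √5) / 2) (r₂ := (1 - √5) / 2)
      (by push_cast; ring) (by push_cast; linear_combination (-1 / 4 : ℝ) * h5)
    obtain ⟨k₂, hk₂⟩ := prod_quadratic hf him (-1) (-1) (r₁ := (-1 + √5) / 2) (r₂ := (-1 - √5) / 2)
      (by push_cast; ring) (by push_cast; linear_combination (-1 / 4 : ℝ) * h5)
    rw [Multiset.map_map, show T.map ((fun x => log (x ^ 2 - 3 * x + 1)) ∘ fun x : ℝ => x ^ 2) =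
      (T.map fun x => (x ^ 2 - ((1 : ℤ) : ℝ) * x + ((-1 : ℤ) : ℝ)) *
        (x ^ 2 - ((-1 : ℤ) : ℝ) * x + ((-1 : ℤ) : ℝ))).map log by
        rw [Multiset.map_map]
        exact Multiset.map_congr rfl fun x _ => congrArg log (by push_cast; ring)]
    refine sum_log_nonneg (fun h => ?_) (k := k₁ * k₂) ?_
    · obtain ⟨x, hx, hx'⟩ := Multiset.mem_map.1 h
      rcases mul_eq_zero.1 hx' with h' | h' <;> push_cast at h'
      exacts [(hne x hx).2.2.2.1 (by linarith), (hne x hx).2.2.2.2 (by linarith)]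
    · rw [Multiset.prod_map_mul, hk₁, hk₂, ← Int.cast_mul]

end FA.SiegelTrace

end
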