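import Mathlib.Analysis.Complex.ExponentialBounds
import Mathlib.Analysis.SpecialFunctions.Log.Basic
import Mathlib.Algebra.Order.BigOperators.Group.Multiset
import Mathlib.Tactic

/-!
# The auxiliary function

`x - (58 log x + 91 log |x - 1| + 34 log |x ^ 2 - 3 x + 1|) / 100 ≥ 31 / 20` for positive `x`, by a
tangent on each of the four intervals between the singularities.
-/

set_option autoImplicit false

noncomputable section

namespace FA.SiegelTrace

open Real

/-- The tangent of the logarithm. -/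
theorem log_le_tangent {u v : ℝ} (huv : 0 < u * v) : log u ≤ log v + (u - v) / v := by
  have hv : v ≠ 0 := fun h => by simp [h] at huv
  have hu : u ≠ 0 := fun h => by simp [h] at huv
  have hpos : 0 < u / v := by
    rw [show u / v = u * v / (v * v) by field_simp]
    exact div_pos huv (mul_self_pos.2 hv)
  have h := Real.log_le_sub_one_of_pos hpos
  rw [Real.log_div hu hv] at h
  rw [sub_div, div_self hv]
  linarith

/-- The auxiliary function. -/
def auxiliary (x : ℝ) : ℝ :=
  x - (58 * log x + 91 * log (x - 1) + 34 * log (x ^ 2 - 3 * x + 1)) / 100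

/-- A tangent of the auxiliary function. -/
theorem le_auxiliary {x s δ N : ℝ} (hx : 0 < x) (hs : 0 < s) (h1 : 0 < (x - 1) * (s - 1))
    {r₁ r₂ : ℝ} (hsum : r₁ + r₂ = 3) (hprod : r₁ * r₂ = 1)
    (hr₁ : 0 < (x - r₁) * (s - r₁)) (hr₂ : 0 < (x - r₂) * (s - r₂))
    (hδ : δ = 1 - (58 / s + 91 / (s - 1) + 34 * ((2 * s - 3) / (s ^ 2 - 3 * s + 1))) / 100)
    (hN : 58 * log s + 91 * log (s - 1) + 34 * log (s ^ 2 - 3 * s + 1) ≤ N) :
    s - N / 100 + δ * (x - s) ≤ auxiliary x := by
  have hq : ∀ t, t ^ 2 - 3 * t + 1 = (t - r₁) * (t - r₂) := fun t => by rw [← hsum, ← hprod]; ring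
  have ha := log_le_tangent (mul_pos hx hs)
  have hb := log_le_tangent h1
  have hc₁ := log_le_tangent hr₁
  have hc₂ := log_le_tangent hr₂
  have hne : ∀ t : ℝ, 0 < (x - t) * (s - t) → x - t ≠ 0 ∧ s - t ≠ 0 := fun t h =>
    ⟨fun e => by simp [e] at h, fun e => by simp [e] at h⟩
  obtain ⟨hx₁, hs₁⟩ := hne r₁ hr₁
  obtain ⟨hx₂, hs₂⟩ := hne r₂ hr₂
  rw [auxiliary, hq x, Real.log_mul hx₁ hx₂]
  rw [hq s, Real.log_mul hs₁ hs₂] at hN
  have hd : (x - r₁ - (s - r₁)) / (s - r₁) + (x - r₂ - (s - r₂)) / (s - r₂) =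
      (2 * s - 3) / (s ^ 2 - 3 * s + 1) * (x - s) := by
    rw [hq s, show (2 * s - 3 : ℝ) = (s - r₁) + (s - r₂) by linarith]
    field_simp
    ring
  have hδx : δ * (x - s) = x - s - (58 * ((x - s) / s) + 91 * ((x - 1 - (s - 1)) / (s - 1)) +
      34 * ((x - r₁ - (s - r₁)) / (s - r₁) + (x - r₂ - (s - r₂)) / (s - r₂))) / 100 := by
    rw [hd, hδ]
    ring
  linarith

/-- The smaller root of `X ^ 2 - 3 X + 1`. -/
def smallRoot : ℝ := (3 - √5) / 2

/-- The larger root of `X ^ 2 - 3 X + 1`. -/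
def largeRoot : ℝ := (3 + √5) / 2

theorem roots_spec : smallRoot + largeRoot = 3 ∧ smallRoot * largeRoot = 1 ∧
    (381 / 1000 < smallRoot ∧ smallRoot < 382 / 1000) ∧
      (2618 / 1000 < largeRoot ∧ largeRoot < 2619 / 1000) := by
  have h5 := Real.sq_sqrt (show (0 : ℝ) ≤ 5 by norm_num)
  have h0 := Real.sqrt_nonneg 5
  have h1 : 22360 / 10000 < √5 := by nlinarith
  have h2 : √5 < 22361 / 10000 := by nlinarith
  refine ⟨?_, ?_, ⟨?_, ?_⟩, ?_, ?_⟩ <;> simp only [smallRoot, largeRoot] <;> nlinarith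

theorem exp_lower (n : ℕ) : (27182818283 / 10000000000 : ℝ) ^ n ≤ exp n := by
  rw [← Real.exp_one_pow]
  have := Real.exp_one_gt_d9
  exact pow_le_pow_left₀ (by norm_num) (by norm_num at this ⊢; linarith) n

theorem exp_upper (n : ℕ) : exp n ≤ (27182818286 / 10000000000 : ℝ) ^ n := by
  rw [← Real.exp_one_pow]
  have := Real.exp_one_lt_d9
  exact pow_le_pow_left₀ (exp_pos 1).le (by norm_num at this ⊢; linarith) n

/-- A bound for a sum of multiples of three logarithms. -/
theorem log_bound {u v w : ℝ} (hu : u ≠ 0) (hv : v ≠ 0) (hw : w ≠ 0) {N : ℝ}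
    (h : |u| ^ 58 * |v| ^ 91 * |w| ^ 34 ≤ exp N) :
    58 * log u + 91 * log v + 34 * log w ≤ N := by
  have hu' := abs_pos.2 hu
  have hv' := abs_pos.2 hv
  have hw' := abs_pos.2 hw
  have h' := Real.log_le_log (by positivity) h
  rw [Real.log_exp, Real.log_mul (by positivity) (by positivity),
    Real.log_mul (by positivity) (by positivity), Real.log_pow, Real.log_pow, Real.log_pow,
    Real.log_abs, Real.log_abs, Real.log_abs] at h'
  norm_num at h'
  linarith

theorem auxiliary_ge {x : ℝ} (hx : 0 < x) (h1 : x ≠ 1) (hq : x ^ 2 - 3 * x + 1 ≠ 0) :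
    31 / 20 ≤ auxiliary x := by
  obtain ⟨hsum, hprod, ⟨ha, ha'⟩, hb, hb'⟩ := roots_spec
  have hfac : x ^ 2 - 3 * x + 1 = (x - smallRoot) * (x - largeRoot) := by
    rw [← hsum, ← hprod]; ring
  obtain ⟨hne₁, hne₂⟩ := mul_ne_zero_iff.1 (hfac ▸ hq)
  rw [sub_ne_zero] at hne₁ hne₂
  rcases lt_or_gt_of_ne hne₁ with hA | hA
  · refine le_trans ?_ (le_auxiliary (s := 2 / 13) (N := -143) hx (by norm_num)
      (mul_pos_of_neg_of_neg (by linarith) (by norm_num)) hsum hprod
      (mul_pos_of_neg_of_neg (by linarith) (by linarith))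
      (mul_pos_of_neg_of_neg (by linarith) (by linarith)) rfl
      (log_bound (by norm_num) (by norm_num) (by norm_num) ?_))
    · norm_num
      linarith
    · rw [show (-143 : ℝ) = -((143 : ℕ) : ℝ) by norm_num, Real.exp_neg]
      refine le_trans ?_ (inv_anti₀ (exp_pos _) (exp_upper 143))
      norm_num
  rcases lt_or_gt_of_ne h1 with hB | hB
  · refine le_trans ?_ (le_auxiliary (s := 2 / 3) (N := -143) hx (by norm_num)
      (mul_pos_of_neg_of_neg (by linarith) (by norm_num)) hsum hprod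
      (mul_pos (by linarith) (by linarith))
      (mul_pos_of_neg_of_neg (by linarith) (by linarith)) rfl
      (log_bound (by norm_num) (by norm_num) (by norm_num) ?_))
    · norm_num
      linarith
    · rw [show (-143 : ℝ) = -((143 : ℕ) : ℝ) by norm_num, Real.exp_neg]
      refine le_trans ?_ (inv_anti₀ (exp_pos _) (exp_upper 143))
      norm_num
  rcases lt_or_gt_of_ne hne₂ with hC | hC
  · refine le_trans ?_ (le_auxiliary (s := 21 / 11) (N := 32) hx (by norm_num)
      (mul_pos (by linarith) (by norm_num)) hsum hprod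
      (mul_pos (by linarith) (by linarith))
      (mul_pos_of_neg_of_neg (by linarith) (by linarith)) rfl
      (log_bound (by norm_num) (by norm_num) (by norm_num) ?_))
    · norm_num
      linarith
    · rw [show (32 : ℝ) = ((32 : ℕ) : ℝ) by norm_num]
      refine le_trans ?_ (exp_lower 32)
      norm_num
  · refine le_trans ?_ (le_auxiliary (s := 25 / 7) (N := 198) hx (by norm_num)
      (mul_pos (by linarith) (by norm_num)) hsum hprod
      (mul_pos (by linarith) (by linarith))
      (mul_pos (by linarith) (by linarith)) rfl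
      (log_bound (by norm_num) (by norm_num) (by norm_num) ?_))
    · norm_num
      linarith
    · rw [show (198 : ℝ) = ((198 : ℕ) : ℝ) by norm_num]
      refine le_trans ?_ (exp_lower 198)
      norm_num

/-- **The averaged inequality.** -/
theorem sum_ge (S : Multiset ℝ) (hS : ∀ x ∈ S, 0 < x ∧ x ≠ 1 ∧ x ^ 2 - 3 * x + 1 ≠ 0)
    (h0 : 0 ≤ (S.map log).sum) (h1 : 0 ≤ (S.map fun x => log (x - 1)).sum)
    (h2 : 0 ≤ (S.map fun x => log (x ^ 2 - 3 * x + 1)).sum) :
    31 / 20 * (Multiset.card S : ℝ) ≤ S.sum := by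
  have h := Multiset.sum_map_le_sum_map (s := S) (fun _ => (31 / 20 : ℝ)) auxiliary
    fun x hx => auxiliary_ge (hS x hx).1 (hS x hx).2.1 (hS x hx).2.2
  rw [Multiset.map_const', Multiset.sum_replicate, nsmul_eq_mul] at h
  have heq : (S.map auxiliary).sum = S.sum - (58 * (S.map log).sum +
      91 * (S.map fun x => log (x - 1)).sum +
        34 * (S.map fun x => log (x ^ 2 - 3 * x + 1)).sum) / 100 := by
    clear h hS h0 h1 h2
    induction S using Multiset.induction_on with
    | empty => simp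
    | cons a S ih => rw [Multiset.map_cons, Multiset.sum_cons, ih]; simp [auxiliary]; ring
  linarith

end FA.SiegelTrace

end
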