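import Fermat.Agent.SiegelTrace.Arithmetic

/-!
# Siegel's theorem for algebraic integers

An irreducible monic polynomial that shares a root with one of the exceptional polynomials is that
polynomial.
-/

set_option autoImplicit false

noncomputable section

namespace FA.SiegelTrace

open Polynomial Real

variable {f : ℤ[X]}

/-- The sum of the complex roots is minus the next coefficient. -/
theorem sum_aroots (hf : f.Monic) : (f.aroots ℂ).sum = -(f.nextCoeff : ℂ) := by
  have h := Splits.nextCoeff_eq_neg_sum_roots_of_monic (IsAlgClosed.splits (f.map (algebraMap ℤ ℂ)))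
    (hf.map _)
  rw [Polynomial.nextCoeff_map (algebraMap ℤ ℂ).injective_int, ← aroots_def] at h
  rw [← neg_neg (f.aroots ℂ).sum, ← h]
  simp

/-- An irreducible monic polynomial with a root in common with `q` divides `q`. -/
theorem eq_of_common_root (hf : f.Monic) (hirr : Irreducible f) {q : ℤ[X]} {z : ℂ}
    (hz : z ∈ f.aroots ℂ) (hq : aeval z q = 0) : f ∣ q := by
  have hint : IsIntegral ℤ z := ⟨f, hf, (mem_aroots.1 hz).2⟩
  have h : minpoly ℤ z ∣ f := minpoly.isIntegrallyClosed_dvd hint (mem_aroots.1 hz).2
  have heq : minpoly ℤ z = f :=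
    eq_of_monic_of_associated (minpoly.monic hint) hf
      ((minpoly.irreducible hint).associated_of_dvd hirr h)
  exact heq ▸ minpoly.isIntegrallyClosed_dvd hint hq

/-- A monic divisor of a monic quadratic without integer roots is that quadratic or trivial. -/
theorem eq_quadratic_of_dvd (hf : f.Monic) (hirr : Irreducible f) {s p : ℤ}
    (hno : ∀ c : ℤ, c ^ 2 - s * c + p ≠ 0) (hdvd : f ∣ X ^ 2 - C s * X + C p) :
    f = X ^ 2 - C s * X + C p := by
  have hqm : (X ^ 2 - C s * X + C p : ℤ[X]).Monic := by monicity!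
  have hqd : (X ^ 2 - C s * X + C p : ℤ[X]).natDegree = 2 := by compute_degree!
  have hle := natDegree_le_of_dvd hdvd hqm.ne_zero
  rw [hqd] at hle
  rcases Nat.lt_or_ge f.natDegree 2 with h | h
  · rcases Nat.eq_zero_or_pos f.natDegree with h0 | h0
    · exact absurd (hf.natDegree_eq_zero.1 h0) hirr.ne_one
    · exfalso
      rw [hf.eq_X_add_C (by omega)] at hdvd
      refine hno (-f.coeff 0) ?_
      have := eval_eq_zero_of_dvd_of_eval_eq_zero hdvd
        (show (X + C (f.coeff 0) : ℤ[X]).eval (-f.coeff 0) = 0 by simp)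
      simpa using this
  · exact eq_of_monic_of_dvd_of_natDegree_le hf hqm hdvd (by omega) |>.symm

/-- **The exceptions are the two polynomials.** -/
theorem trace_gap (hf : f.Monic) (hirr : Irreducible f) (him : ∀ z ∈ f.aroots ℂ, z.im = 0)
    (hpos : ∀ z ∈ f.aroots ℂ, 0 < z.re) (h1 : f ≠ X - C 1) (h2 : f ≠ X ^ 2 - C 3 * X + C 1) :
    31 / 20 * (f.natDegree : ℝ) ≤ -(f.nextCoeff : ℝ) := by
  rw [← sum_realRoots hf]
  refine trace_ge hf him hpos fun z hz => ⟨fun e => h1 ?_, fun e => h2 ?_⟩
  · have hdvd : f ∣ X - C 1 := eq_of_common_root hf hirr hz (by simp [e])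
    exact eq_of_monic_of_associated hf (monic_X_sub_C 1)
      (hirr.associated_of_dvd (irreducible_X_sub_C 1) hdvd)
  · refine eq_quadratic_of_dvd hf hirr (fun c hc => ?_)
      (eq_of_common_root hf hirr hz (by simpa [map_ofNat] using e))
    rcases le_or_gt c 0 with h | h
    · nlinarith
    · rcases le_or_gt c 2 with h' | h'
      · interval_cases c <;> omega
      · nlinarith

/-- **The squares, and their exceptions.** -/
theorem squares_gap (hf : f.Monic) (hirr : Irreducible f) (him : ∀ z ∈ f.aroots ℂ, z.im = 0)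
    (h0 : f ≠ X) (h1 : f ≠ X - C 1) (h1' : f ≠ X + C 1) (h2 : f ≠ X ^ 2 - C 1 * X + C (-1))
    (h2' : f ≠ X ^ 2 - C (-1) * X + C (-1)) :
    31 / 20 * (f.natDegree : ℝ) ≤ ((f.aroots ℂ).map fun z => z ^ 2).sum.re := by
  have hno : ∀ s : ℤ, s = 1 ∨ s = -1 → ∀ c : ℤ, c ^ 2 - s * c + (-1) ≠ 0 := fun s hs c hc => by
    rcases le_or_gt c (-2) with h | h
    · rcases hs with rfl | rfl <;> nlinarith
    rcases le_or_gt 2 c with h' | h'
    · rcases hs with rfl | rfl <;> nlinarith
    rcases hs with rfl | rfl <;> interval_cases c <;> omega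
  have hre : ((f.aroots ℂ).map fun z => z ^ 2).sum.re = ((realRoots f).map (· ^ 2)).sum := by
    rw [← ofReal_realRoots him, Multiset.map_map]
    generalize realRoots f = T
    induction T using Multiset.induction_on with
    | empty => simp
    | cons a T ih =>
      rw [Multiset.map_cons, Multiset.sum_cons, Multiset.map_cons, Multiset.sum_cons,
        Complex.add_re, ih, Function.comp_apply, ← Complex.ofReal_pow, Complex.ofReal_re]
  rw [hre]
  refine squares_ge hf him fun z hz => ⟨fun e => h0 ?_, fun e => h1 ?_, fun e => h1' ?_,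
    fun e => h2 ?_, fun e => h2' ?_⟩
  · exact eq_of_monic_of_associated hf monic_X (hirr.associated_of_dvd irreducible_X
      (eq_of_common_root hf hirr hz (by simp [e])))
  · exact eq_of_monic_of_associated hf (monic_X_sub_C 1) (hirr.associated_of_dvd
      (irreducible_X_sub_C 1) (eq_of_common_root hf hirr hz (by simp [e])))
  · refine eq_of_monic_of_associated hf (monic_X_add_C 1) (hirr.associated_of_dvd ?_
      (eq_of_common_root hf hirr hz (by simp [e])))
    rw [show (X + C (1 : ℤ) : ℤ[X]) = X - C (-1) by rw [map_neg, sub_neg_eq_add]]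
    exact irreducible_X_sub_C _
  · refine eq_quadratic_of_dvd hf hirr (hno 1 (Or.inl rfl))
      (eq_of_common_root hf hirr hz ?_)
    simp only [map_sub, map_add, map_pow, map_mul, aeval_X, map_neg, map_one]
    linear_combination e
  · refine eq_quadratic_of_dvd hf hirr (hno (-1) (Or.inr rfl))
      (eq_of_common_root hf hirr hz ?_)
    simp only [map_sub, map_add, map_pow, map_mul, aeval_X, map_neg, map_one]
    linear_combination e

end FA.SiegelTrace

end
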